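import Fermat.Agent.S17.H290.GaussDefs
import Fermat.Agent.Lib.RR.H259.Mult

/-!
# S17 / tower H — sub-project GAUSS, leaf PN (projective normality)  (helper449)

`projNormal : Big E → ProjNormalStatement E` (the frozen Prop of `S17/H290/GaussDefs.lean`,
verbatim, under the standing hypothesis `Big E : 4 g + 1 ≤ E.m` of the wall):
every element of `L(e m ∞)` is the value at `E.x` of a form of degree `e`.

Route: induction on `e`; `e = 0` is `L(0) = K`, `e = 1` is `E.x_span`, and the step is
`L(e m ∞) * L(m ∞) = L((e + 1) m ∞)` (`Lib/RR/H259.exists_sum_mul_eq`, both degrees `≥ 4 g`).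

Reusable by-products: `pn_exists_form_of_mem_span`, `pn_degree_nsmul_prim`.
-/

set_option autoImplicit false

noncomputable section

namespace Fermat.Agent.S17.H449

open AlgebraicCurve MvPolynomial
open Fermat.Agent.Lib.RR Fermat.Agent.S17.HWall Fermat.Agent.S17.HContract Fermat.Agent.S17.Wall
open Fermat.Agent.S17.H290

variable {K F : Type*} [Field K] [CharZero K] [Field F] [Algebra K F] [FF1 K F]

omit [CharZero K] in
/-- `deg (n ∞) = n`. -/
theorem pn_degree_nsmul_prim (v : Place K F) (n : ℕ) :
    Divisor.degree (n • prim v) = (n : ℤ) := by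
  rw [map_nsmul, degree_prim']
  simp

omit [CharZero K] in
/-- degree one: elements of the span of `E.x` are values of linear forms. -/
theorem pn_exists_form_of_mem_span (E : EmbData K F) {f : F}
    (hf : f ∈ Submodule.span K (Set.range E.x)) :
    ∃ G : MvPolynomial (Fin (E.r + 1)) K, G.IsHomogeneous 1 ∧ aeval E.x G = f := by
  obtain ⟨a, rfl⟩ := (Submodule.mem_span_range_iff_exists_fun K).mp hf
  refine ⟨linForm a, linForm_isHomogeneous a, ?_⟩
  simp [linForm, Algebra.smul_def]

/-- **PN (projective normality)** under the standing hypothesis `Big E` of the wall. -/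
theorem projNormal (E : EmbData K F) (hBig : Big E) : ProjNormalStatement E := by
  intro e
  induction e with
  | zero =>
    intro f hf
    rw [zero_mul, zero_smul, L_zero] at hf
    obtain ⟨c, rfl⟩ := hf
    exact ⟨C c, isHomogeneous_C _ c, by simp⟩
  | succ e ih =>
    intro f hf
    rcases Nat.eq_zero_or_pos e with he | he
    · subst he
      rw [zero_add, one_mul, ← E.x_span] at hf
      exact pn_exists_form_of_mem_span E hf
    · have hg : (genusFF K F : ℤ) = (genusR K F : ℤ) := by rw [genusFF_eq_genusR]
      have hm : 4 * (genusR K F : ℤ) + 1 ≤ (E.m : ℤ) := by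
        have := hBig
        unfold Big at this
        exact_mod_cast this
      have hA : 4 * (genusFF K F : ℤ) ≤ Divisor.degree ((e * E.m) • prim E.vinf) := by
        rw [pn_degree_nsmul_prim, hg]
        have h1 : (E.m : ℤ) ≤ ((e * E.m : ℕ) : ℤ) := by
          exact_mod_cast Nat.le_mul_of_pos_left E.m he
        linarith
      have hB : 4 * (genusFF K F : ℤ) ≤ Divisor.degree (E.m • prim E.vinf) := by
        rw [pn_degree_nsmul_prim, hg]
        linarith
      have hsplit : ((e + 1) * E.m) • prim E.vinf
          = (e * E.m) • prim E.vinf + E.m • prim E.vinf := by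
        rw [add_mul, one_mul, add_smul]
      rw [hsplit] at hf
      obtain ⟨n, a, b, ha, hb, rfl⟩ := H259.exists_sum_mul_eq hA hB hf
      have hb' : ∀ i, ∃ G : MvPolynomial (Fin (E.r + 1)) K,
          G.IsHomogeneous 1 ∧ aeval E.x G = b i := fun i =>
        pn_exists_form_of_mem_span E (by rw [E.x_span]; exact hb i)
      choose Ga hGa hGa' using fun i => ih (a i) (ha i)
      choose Gb hGb hGb' using hb'
      refine ⟨∑ i, Ga i * Gb i, ?_, ?_⟩
      · exact IsHomogeneous.sum _ _ _ fun i _ => (hGa i).mul (hGb i)
      · rw [map_sum]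
        exact Finset.sum_congr rfl fun i _ => by rw [map_mul, hGa' i, hGb' i]

end Fermat.Agent.S17.H449
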